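import Fermat.Agent.S55.G.Rec.Spec2
import Fermat.Agent.S55.G.Rec.Final

/-!
# Row LT, tower CFT, sub-tower REC2 (sub-architect helper1), OFF-MAIN : FROZEN INTERFACE

The reciprocity law `∑_v inv_v (x_v) = 0` for the `2`-PRIMARY part of `Br(K)`, `K = ℚ̄^U` a
TOTALLY COMPLEX number field.  This is block REC of S55 layer G (on main,
`Fermat/Agent/S55/G/Rec`, norm route, blueprint `origin/helper1:coord/S55-G-REC.md`) with
"`p ≠ 2` / `Odd n`" replaced by "`K` has no real place".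

## The hypothesis
`IsTC U` : no embedding `φ : ℚ̄ → ℂ` is real on the fixed field of `U`.  (EMBEDDING shape: for a
number field `K ⊆ ℚ̄` with `U = Gal(ℚ̄/K)` it is literally "every infinite place of `K` is
complex"; no Artin-Schreier theorem is needed to use it.  It is stable under passing to
subgroups, `IsTC.mono`.)

## What changes with respect to main (p odd)
* STEP A (`CycloSumTCSpec`) : the sign `χ(-1)` disappears because `N_{K/ℚ}(a) > 0`
  (`NormPosSpec`, new leaf G6) and because the local norms from subfields of `ℚ_ℓ(μ_{ℓ^e})` are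
  known WITHOUT sign (`LocalCycloNormSharpSpec`, new leaf L5', all primes `ℓ`, `2` included).
* STEP B (`TrivAbove2Spec`) : the character is the SQUARE of the cyclotomic character mod `2^N`
  (values in the cyclic group of squares of `(ℤ/2^N)ˣ`); input `HassePrinciple2Spec` (from G2).
* STEP C (`KillAbove2Spec`) : auxiliary primes `r` with `ord_r(2) = 2^N` (divisors of Fermat
  numbers; main `H897.exists_prime_orderOf_eq_prime_pow'` holds for every prime `p`).

All Props below are TRUE statements (consequences of global class field theory).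

PROVED here: `reciprocityTC_of` (final assembly) and `reciprocityTC_of_leaves` (the wall).
-/

set_option autoImplicit false

noncomputable section

namespace Fermat.Agent.LT.CFT.H1

open Fermat.Agent.S55.G.Rec groupCohomology

local notation "Qb" => AlgebraicClosure ℚ
local notation "GQ" => (AlgebraicClosure ℚ ≃ₐ[ℚ] AlgebraicClosure ℚ)

/-! ## The totally complex hypothesis -/

/-- The fixed field of `U` is TOTALLY COMPLEX: no embedding `φ : ℚ̄ → ℂ` is real on it. -/
def IsTC (U : Subgroup GQ) : Prop :=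
  ∀ φ : Qb →+* ℂ, ∃ a : Qb, (∀ u ∈ U, u a = a) ∧ (starRingEnd ℂ) (φ a) ≠ φ a

/-- `IsTC` passes to subgroups (= to extension fields). -/
theorem IsTC.mono {U U' : Subgroup GQ} (h : U' ≤ U) (hU : IsTC U) : IsTC U' := by
  intro φ
  obtain ⟨a, ha, hne⟩ := hU φ
  exact ⟨a, fun u hu => ha u (h hu), hne⟩

/-- `IsTC` is invariant under conjugation (= under `K ↦ g K`). -/
theorem IsTC.conj {U : Subgroup GQ} (hU : IsTC U) (g : GQ) :
    IsTC (U.map (MulAut.conj g).toMonoidHom) := by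
  intro φ
  obtain ⟨a, ha, hne⟩ := hU (φ.comp (g : Qb →+* Qb))
  refine ⟨g a, ?_, hne⟩
  rintro _ ⟨u, hu, rfl⟩
  show (g * u * g⁻¹) (g a) = g a
  have h1 : (g⁻¹ : GQ) (g a) = a := AlgEquiv.symm_apply_apply g a
  show g (u ((g⁻¹ : GQ) (g a))) = g a
  rw [h1, ha u hu]

/-! ## IN : from the sub-tower G2 (inequalities at `p = 2`) -/

/-- **Hasse principle**, `2`-primary part, totally complex fields: a class of `2`-power order in
`Br(K)` which is trivial at all finite places is trivial.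
(= main `HassePrincipleSpec 2` restricted to `IsTC U`.) -/
def HassePrinciple2Spec : Prop :=
  ∀ (U : Subgroup GQ), IsOpenQ U → IsTC U → ∀ x : gBr U, (∃ k : ℕ, 2 ^ k • x = 0) →
    (∀ (q : ℕ) [Fact q.Prime] (g : GQ), locBr q g U x = 0) → x = 0

/-! ## New leaves -/

/-- (L5') NORMS FROM LOCAL CYCLOTOMIC FIELDS, SHARP FORM (no sign, every prime `ℓ`): `m = ℓ ^ e`,
`W ≤ G_{ℚ_ℓ}` a subgroup containing the group of `ℚ̄_ℓ/ℚ_ℓ(μ_m)`, `b` in the fixed field `E` of
`W`.  Then `N_{E/ℚ_ℓ}(b) = ℓ^k · u` with `u ≡ t mod m`, where `t` is the cyclotomic value of some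
`τ ∈ W`.  (Local class field theory: `N(Eˣ) = ℓ^ℤ × {u ∈ ℤ_ℓˣ | u mod m ∈ c(W)}`.  Elementary
proof: approximate `b` by `β` in the global field `E₀ = ℚ(μ_m)^{c(W)}`; every prime `𝔮 ∤ ℓ` of
`E₀` has norm `q^f` with `q^f mod m ∈ c(W)`; `N(β) > 0` if `E₀` is totally complex and
`-1 ∈ c(W)` otherwise.) -/
def LocalCycloNormSharpSpec : Prop :=
  ∀ (ℓ : ℕ) [Fact ℓ.Prime] (e : ℕ), 0 < e →
    ∀ W : Subgroup (PadicAlgCl ℓ ≃ₐ[ℚ_[ℓ]] PadicAlgCl ℓ),
    (∀ τ : PadicAlgCl ℓ ≃ₐ[ℚ_[ℓ]] PadicAlgCl ℓ,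
      (∀ ζ : PadicAlgCl ℓ, ζ ^ (ℓ ^ e) = 1 → τ ζ = ζ) → τ ∈ W) →
    ∀ b : (PadicAlgCl ℓ)ˣ, LFixed ℓ W b →
      ∃ (k : ℤ) (t : ℕ) (τ : PadicAlgCl ℓ ≃ₐ[ℚ_[ℓ]] PadicAlgCl ℓ), τ ∈ W ∧
        (∀ ζ : PadicAlgCl ℓ, ζ ^ (ℓ ^ e) = 1 → τ ζ = ζ ^ t) ∧
        ‖((relNorm W b : (PadicAlgCl ℓ)ˣ) : PadicAlgCl ℓ) -
            (ℓ : PadicAlgCl ℓ) ^ k * (t : PadicAlgCl ℓ)‖
          ≤ ‖(ℓ : PadicAlgCl ℓ)‖ ^ (k + e)

/-- (G6) POSITIVITY OF NORMS: for `K = ℚ̄^U` totally complex, `N_{K/ℚ}(a) > 0`.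
(`relNorm U a = ∏_{t ∈ G_ℚ/U} t • a` is rational by main `OrbitNormSpec`.) -/
def NormPosSpec : Prop :=
  ∀ (U : Subgroup GQ), IsOpenQ U → IsTC U → ∀ a : Qbˣ, GFixed U a →
    ∀ y : ℚˣ, ((relNorm U a : Qbˣ) : Qb) = algebraMap ℚ Qb (y : ℚ) → 0 < (y : ℚ)

/-! ## The three steps -/

/-- (STEP A') cyclotomic sum formula over totally complex fields: for a cup class with a
character of ANY order `n` which is cyclotomic mod `m = ℓ ^ e` (ANY prime `ℓ`), locally trivial
at all places above `ℓ`, the sum of the local invariants vanishes. -/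
def CycloSumTCSpec (I : LocalInvSystem) : Prop :=
  ∀ (U : Subgroup GQ), IsOpenQ U → IsTC U → ∀ (ℓ : ℕ) [Fact ℓ.Prime] (e : ℕ), 0 < e →
    ∀ (n : ℕ), n ≠ 0 → ∀ (χ : ↥U →* Multiplicative (ZMod n)),
    IsLevelConstant₁ U.subtype χ → IsCycloChar U (ℓ ^ e) χ →
    ∀ a : Qbˣ, GFixed U a →
    (∀ g : GQ, locBr ℓ g U (gcc U n χ a) = 0) →
    ∀ R : Nat.Primes → Finset GQ, IsPlaceReps U R → I.sumInv U R (gcc U n χ a) = 0

/-- (STEP B') classes of `2`-power order which are trivial at the places above `2`. -/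
def TrivAbove2Spec (I : LocalInvSystem) : Prop :=
  ∀ (U : Subgroup GQ), IsOpenQ U → IsTC U → ∀ x : gBr U, (∃ k : ℕ, 2 ^ k • x = 0) →
    (∀ g : GQ, locBr 2 g U x = 0) →
    ∀ R : Nat.Primes → Finset GQ, IsPlaceReps U R → I.sumInv U R x = 0

/-- (STEP C') killing the components above `2` by a cup class with vanishing sum. -/
def KillAbove2Spec (I : LocalInvSystem) : Prop :=
  ∀ (U : Subgroup GQ), IsOpenQ U → IsTC U → ∀ x : gBr U, (∃ k : ℕ, 2 ^ k • x = 0) →
    ∃ y : gBr U, (∃ k : ℕ, 2 ^ k • y = 0) ∧ (∀ g : GQ, locBr 2 g U (x - y) = 0) ∧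
      ∀ R : Nat.Primes → Finset GQ, IsPlaceReps U R → I.sumInv U R y = 0

/-! ## OUT : the deliverable -/

/-- **REC2**: the reciprocity law for the `2`-primary part of `Br(K)`, `K = ℚ̄^U` totally
complex: almost all local invariants vanish and their sum is `0`. -/
def ReciprocityTCSpec (I : LocalInvSystem) : Prop :=
  ∀ (U : Subgroup GQ), IsOpenQ U → IsTC U →
    ∀ x : gBr U, (∃ k : ℕ, 2 ^ k • x = 0) →
      ∀ R : Nat.Primes → Finset GQ, IsPlaceReps U R →
        (Function.support fun q : Nat.Primes => ∑ r ∈ R q, I.invAt q r U x).Finite ∧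
          I.sumInv U R x = 0

/-! ## The reductions (sub-leaves SA2, SB2, SC2; the other inputs are proved leaves of main) -/

/-- (SA2) STEP A' from the two new leaves.  (Copy of main `H511.cycloSum_of` with `S = 1`.) -/
def StepA2Spec : Prop :=
  LocalCycloNormSharpSpec → NormPosSpec → ∀ I : LocalInvSystem, CycloSumTCSpec I

/-- (SB2) STEP B' from the Hasse principle and STEP A'.  (Copy of main `H415.trivAboveP_of`
with the character `σ ↦ c(σ)²`, `c` the cyclotomic character mod `2^N`.) -/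
def StepB2Spec : Prop :=
  HassePrinciple2Spec → ∀ I : LocalInvSystem, CycloSumTCSpec I → TrivAbove2Spec I

/-- (SC2) STEP C' from STEP A'.  (Copy of main `H174.killAboveP_core`.) -/
def StepC2Spec : Prop :=
  ∀ I : LocalInvSystem, CycloSumTCSpec I → KillAbove2Spec I

/-! ## Final assembly (PROVED) -/

/-- **FIN2**: the reciprocity law from STEP B', STEP C' and finiteness of supports. -/
theorem reciprocityTC_of (I : LocalInvSystem)
    (hB : TrivAbove2Spec I) (hC : KillAbove2Spec I) (hS : SupportFiniteSpec) :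
    ReciprocityTCSpec I := by
  intro U hU hTC x hx R hR
  refine ⟨I.support_finite hS U hU R x, ?_⟩
  obtain ⟨y, hy, hloc, hsum⟩ := hC U hU hTC x hx
  have hxy : ∃ k : ℕ, 2 ^ k • (x - y) = 0 := by
    obtain ⟨k, hk⟩ := hx
    obtain ⟨k', hk'⟩ := hy
    refine ⟨k + k', ?_⟩
    have e1 : 2 ^ (k + k') • x = 2 ^ k' • (2 ^ k • x) := by
      rw [← mul_smul, pow_add, mul_comm]
    have e2 : 2 ^ (k + k') • y = 2 ^ k • (2 ^ k' • y) := by
      rw [← mul_smul, pow_add]
    rw [smul_sub, e1, e2, hk, hk', smul_zero, smul_zero, sub_zero]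
  have h1 : I.sumInv U R (x - y) = 0 := hB U hU hTC (x - y) hxy hloc R hR
  have h2 : I.sumInv U R y = 0 := hsum R hR
  have h3 : I.sumInv U R x = I.sumInv U R (x - y) + I.sumInv U R y := by
    rw [← I.sumInv_add hS U hU R, sub_add_cancel]
  rw [h3, h1, h2, add_zero]

/-- **THE WALL of REC2**: the reciprocity law at `p = 2` over totally complex fields from the
two new leaves (L5', G6), the input of G2 (HP2), the three reductions (SA2, SB2, SC2) and the
proved leaf G4 of main. -/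
theorem reciprocityTC_of_leaves (hL5 : LocalCycloNormSharpSpec) (hG6 : NormPosSpec)
    (hHP : HassePrinciple2Spec) (hA : StepA2Spec) (hB : StepB2Spec) (hC : StepC2Spec)
    (hS : SupportFiniteSpec) (I : LocalInvSystem) : ReciprocityTCSpec I :=
  reciprocityTC_of I (hB hHP I (hA hL5 hG6 I)) (hC I (hA hL5 hG6 I)) hS

end Fermat.Agent.LT.CFT.H1
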