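import Fermat.Agent.LT.CFT.H1.Wall3
import Fermat.Agent.LT.CFT.H421.HP2

/-!
# Row LT, tower CFT, sub-tower REC2 (helper1), OFF-MAIN : REC2 IS CLOSED

**`reciprocityTCClosed : ∀ I : LocalInvSystem, ReciprocityTCSpec I`** (unconditional):
for every local invariant system `I`, every TOTALLY COMPLEX number field `K = ℚ̄^U` (`IsTC U`)
and every `x ∈ Br(K)` of `2`-power order: almost all `inv_v (x_v)` vanish and
`∑_v inv_v (x_v) = 0`.

Inputs: `H1.reciprocityTC3` (Steps A', B', C', leaves L5' and G6: helper1) and
`H421.hassePrinciple2` (sub-tower G2: helper421, on the closed layer-G forms of helper119).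
Together with main `Rec.reciprocityFull` (odd `p`) this is the reciprocity law for the whole
Brauer group of a totally complex number field.
-/

set_option autoImplicit false

namespace Fermat.Agent.LT.CFT.H1

open Fermat.Agent.S55.G.Rec

/-- **REC2, closed.** -/
theorem reciprocityTCClosed (I : LocalInvSystem) : ReciprocityTCSpec I :=
  reciprocityTC3 Fermat.Agent.LT.CFT.H421.hassePrinciple2 I

end Fermat.Agent.LT.CFT.H1
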