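import Fermat.Agent.LT.CFT.H1.Spec
import Fermat.Agent.S55.G.Rec.OrbitNormH934

/-!
# Row LT, tower CFT, sub-tower REC2 (helper1), OFF-MAIN : leaf G6 = `NormPosSpec` (PROVED)

`normPos : NormPosSpec` : for `K = ℚ̄^U` totally complex (`IsTC U`) and `a ∈ Kˣ`,
`N_{K/ℚ}(a) = ∏_{t ∈ G_ℚ/U} t • a > 0`.

Proof.  Fix `φ : ℚ̄ → ℂ` and let `c ∈ G_ℚ` be the complex conjugation of `φ`
(`φ (c x) = conj (φ x)`, `AlgEquiv.restrictNormal`).  Left translation by `c` is an involution of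
`G_ℚ/U` without fixed points (`IsTC` for the embedding `φ ∘ g`), and
`f(t) := φ (t • a)` satisfies `f (c t) = conj (f t)`.  Hence `∏ f(t)/|f(t)| = 1`
(`Finset.prod_involution`), i.e. `φ(N a) = ∏ |f(t)| > 0`.
-/

set_option autoImplicit false
set_option linter.style.haveILetI false

noncomputable section

namespace Fermat.Agent.LT.CFT.H1

open Fermat.Agent.S55.G.Rec

local notation "Qb" => AlgebraicClosure ℚ
local notation "GQ" => (AlgebraicClosure ℚ ≃ₐ[ℚ] AlgebraicClosure ℚ)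

/-- A product over a finite type with a fixed-point-free involution `σ` and `f (σ x) = conj (f x)`,
`f x ≠ 0`, is the product of the absolute values. -/
theorem prod_eq_prod_norm_of_involution {X : Type*} [Fintype X] (σ : X → X)
    (hσ : ∀ x, σ (σ x) = x) (hfix : ∀ x, σ x ≠ x) (f : X → ℂ) (hf0 : ∀ x, f x ≠ 0)
    (hf : ∀ x, f (σ x) = (starRingEnd ℂ) (f x)) :
    ∏ x, f x = ((∏ x, ‖f x‖ : ℝ) : ℂ) := by
  have hn0 : ∀ x, ((‖f x‖ : ℝ) : ℂ) ≠ 0 := fun x =>
    Complex.ofReal_ne_zero.mpr (norm_ne_zero_iff.mpr (hf0 x))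
  have h1 : ∏ x, f x / ((‖f x‖ : ℝ) : ℂ) = 1 := by
    refine Finset.prod_involution (fun x _ => σ x) ?_ (fun x _ _ => hfix x)
      (fun x _ => Finset.mem_univ _) (fun x _ => hσ x)
    intro x _
    have h2 : ‖f (σ x)‖ = ‖f x‖ := by rw [hf x, RCLike.norm_conj]
    rw [h2, hf x, div_mul_div_comm, Complex.mul_conj, Complex.normSq_eq_norm_sq]
    rw [Complex.ofReal_pow, sq]
    exact div_self (mul_ne_zero (hn0 x) (hn0 x))
  rw [Finset.prod_div_distrib] at h1
  have h3 : (∏ x, ((‖f x‖ : ℝ) : ℂ)) ≠ 0 := Finset.prod_ne_zero_iff.mpr fun x _ => hn0 x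
  rw [div_eq_one_iff_eq h3] at h1
  rw [h1, Complex.ofReal_prod]

/-- **G6**: positivity of norms from totally complex fields. -/
theorem normPos : NormPosSpec := by
  classical
  intro U hU hTC a ha y hy
  haveI : Finite (GQ ⧸ U) := H934.finite_quotient_of_isOpenQ hU
  haveI : Fintype (GQ ⧸ U) := Fintype.ofFinite _
  -- an embedding `φ : ℚ̄ → ℂ`
  haveI : Algebra.IsAlgebraic ℚ Qb := AlgebraicClosure.isAlgebraic ℚ
  haveI : IsAlgClosure ℚ Qb := ⟨inferInstance, AlgebraicClosure.isAlgebraic ℚ⟩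
  let φ : Qb →ₐ[ℚ] ℂ := IsAlgClosed.lift
  have hφinj : Function.Injective φ := φ.toRingHom.injective
  -- complex conjugation as an element of `G_ℚ`
  letI : Algebra Qb ℂ := φ.toRingHom.toAlgebra
  haveI : IsScalarTower ℚ Qb ℂ := IsScalarTower.of_algebraMap_eq fun x => (φ.commutes x).symm
  haveI : Normal ℚ Qb := IsAlgClosure.normal ℚ Qb
  let c : GQ := (Complex.conjAe.restrictScalars ℚ).restrictNormal Qb
  have hc : ∀ x : Qb, φ (c x) = (starRingEnd ℂ) (φ x) := fun x =>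
    AlgEquiv.restrictNormal_commutes (Complex.conjAe.restrictScalars ℚ) Qb x
  have hcc : c * c = 1 := by
    ext x
    apply hφinj
    show φ (c (c x)) = φ x
    rw [hc, hc, Complex.conj_conj]
  -- the function
  let f : GQ ⧸ U → ℂ := fun t => φ (((Quotient.out t : GQ) • a : Qbˣ) : Qb)
  have hf0 : ∀ t, f t ≠ 0 := fun t => by
    show φ _ ≠ 0
    rw [map_ne_zero_iff φ hφinj]
    exact Units.ne_zero _
  have hfmk : ∀ g : GQ, f (QuotientGroup.mk g) = φ ((g • a : Qbˣ) : Qb) := fun g => by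
    show φ (((Quotient.out (QuotientGroup.mk g : GQ ⧸ U) : GQ) • a : Qbˣ) : Qb) = _
    rw [H934.out_smul_of_fixed U ha g]
  have hsmul : ∀ (g : GQ) (t : GQ ⧸ U), g • t = QuotientGroup.mk (g * Quotient.out t) := by
    intro g t
    conv_lhs => rw [← QuotientGroup.out_eq' t]
    rfl
  have hf : ∀ t, f (c • t) = (starRingEnd ℂ) (f t) := by
    intro t
    rw [hsmul, hfmk, mul_smul]
    exact hc _
  have hσ : ∀ t : GQ ⧸ U, c • c • t = t := fun t => by
    rw [← mul_smul, hcc, one_smul]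
  have hfix : ∀ t : GQ ⧸ U, c • t ≠ t := by
    intro t ht
    set g : GQ := Quotient.out t with hg
    have h1 : (QuotientGroup.mk (c * g) : GQ ⧸ U) = QuotientGroup.mk g := by
      rw [← hsmul, ht, hg]
      exact (QuotientGroup.out_eq' t).symm
    have h2 : (c * g)⁻¹ * g ∈ U := QuotientGroup.eq.mp h1
    have h3 : g⁻¹ * c * g ∈ U := by
      have h4 := U.inv_mem h2
      have h5 : ((c * g)⁻¹ * g)⁻¹ = g⁻¹ * c * g := by group
      rwa [h5] at h4
    obtain ⟨b, hb, hne⟩ := hTC ((φ : Qb →+* ℂ).comp ((g : Qb ≃ₐ[ℚ] Qb) : Qb →+* Qb))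
    apply hne
    show (starRingEnd ℂ) (φ (g b)) = φ (g b)
    rw [← hc]
    congr 1
    have h6 : (g⁻¹ * c * g) b = b := hb _ h3
    have h7 : g ((g⁻¹ * c * g) b) = c (g b) := by
      show g ((g⁻¹ : GQ) (c (g b))) = c (g b)
      exact AlgEquiv.apply_symm_apply g _
    rw [← h7, h6]
  have hprod := prod_eq_prod_norm_of_involution (fun t : GQ ⧸ U => c • t) hσ hfix f hf0 hf
  -- the product is `φ (N a) = y`
  have hN : ∏ t : GQ ⧸ U, f t = ((y : ℚ) : ℂ) := by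
    have h1 : φ ((relNorm U a : Qbˣ) : Qb) = ∏ t : GQ ⧸ U, f t := by
      rw [H934.relNorm_eq_prod, Units.coe_prod, map_prod]
    rw [← h1, hy, AlgHom.commutes]
    simp
  rw [hN] at hprod
  have hpos : (0 : ℝ) < ∏ t : GQ ⧸ U, ‖f t‖ :=
    Finset.prod_pos fun t _ => norm_pos_iff.mpr (hf0 t)
  have h8 : (((y : ℚ) : ℝ) : ℂ) = ((∏ t : GQ ⧸ U, ‖f t‖ : ℝ) : ℂ) := by
    rw [← hprod]
    simp
  have h9 : ((y : ℚ) : ℝ) = ∏ t : GQ ⧸ U, ‖f t‖ := Complex.ofReal_injective h8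
  have h10 : (0 : ℝ) < ((y : ℚ) : ℝ) := by rw [h9]; exact hpos
  exact_mod_cast h10

end Fermat.Agent.LT.CFT.H1
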