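import Fermat.Agent.LT.CFT.H1.Spec
import Fermat.Agent.S55.G.Rec.StepAH511
import Fermat.Agent.S55.G.Rec.CupLocH496
import Fermat.Agent.S55.G.Rec.CupAddH496
import Fermat.Agent.S55.G.Rec.LocalNormH844
import Fermat.Agent.S55.G.Rec.L2H931
import Fermat.Agent.S55.G.Rec.L4L6H854
import Fermat.Agent.S55.G.Rec.OrbitNormH934
import Fermat.Agent.S55.G.Rec.H124.ProductFormula
import Fermat.Agent.S55.G.Rec.VdegH707
import Fermat.Agent.S55.G.Rec.SupportFiniteH181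
import Fermat.Agent.S55.G.Rec.UnramCupH900

/-!
# Row LT, tower CFT, sub-tower REC2 (helper1), OFF-MAIN : sub-leaf SA2 = STEP A' (PROVED)

`stepA2 : StepA2Spec`, i.e. `LocalCycloNormSharpSpec → NormPosSpec → ∀ I, CycloSumTCSpec I`.

Copy of main `Fermat.Agent.S55.G.Rec.H511` (helper511: `unit_prod_eq_pm`, `exists_norm_approx`,
`key_above`, `cycloSum_of`) with the sign removed:
* `unit_prod_eq_of_pos` : `y > 0`, `y ≡ ℓ^K · P mod ℓ^(K+e)` ⟹ `∏_{q ≠ ℓ} q ^ v_q(y) = P` in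
  `(ℤ/ℓ^e)ˣ` (no `±`);
* `chi_eq_one_of_mem_range_exact` : no hypothesis on the order of `χ`;
* `exists_norm_approxTC`, `key_aboveTC` : from the SHARP local norm leaf, every prime `ℓ`;
* `cycloSumTC_of` : STEP A' (uses `NormPosSpec` for `y = N_{K/ℚ}(a) > 0`).
The places away from `ℓ` (`H511.key_away`) and all other leaves are imported from main, unchanged.
-/

set_option autoImplicit false
set_option linter.style.haveILetI false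

noncomputable section

namespace Fermat.Agent.LT.CFT.H1

open Fermat.Agent.S55.G.Rec Fermat.Agent.S55.G.Rec.H511 groupCohomology

local notation "Qb" => AlgebraicClosure ℚ
local notation "GQ" => (AlgebraicClosure ℚ ≃ₐ[ℚ] AlgebraicClosure ℚ)

/-! ## Algebra -/

/-- A character `χ` which is trivial on `ker c` is trivial on every element whose `c`-value is
`c κ`, `κ ∈ ker χ`.  (No hypothesis on the order of `χ`.) -/
theorem chi_eq_one_of_mem_range_exact {U C : Type*} [Group U] [CommGroup C] {n : ℕ}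
    (c : U →* C) (χ : U →* Multiplicative (ZMod n)) (hcyc : ∀ σ, c σ = 1 → χ σ = 1)
    {t : C} {w : Multiplicative (ZMod n)} (hmem : (t, w) ∈ (c.prod χ).range)
    (κ : U) (hκ : χ κ = 1) (ht : t = c κ) : w = 1 := by
  obtain ⟨σ, hσ⟩ := hmem
  have h1 : c σ = t := congrArg Prod.fst hσ
  have h2 : χ σ = w := congrArg Prod.snd hσ
  have h3 : c (σ * κ⁻¹) = 1 := by
    rw [map_mul, map_inv, h1, ht, mul_inv_cancel]
  have h4 := hcyc _ h3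
  rw [map_mul, map_inv, h2, hκ, inv_one, mul_one] at h4
  exact h4

theorem unit_prod_eq_of_pos (ℓ : ℕ) [Fact ℓ.Prime] (e : ℕ) (y : ℚ) (hypos : 0 < y)
    (K : ℤ) (P : ℕ) (hP : ¬ ℓ ∣ P)
    (hest' : ‖(y : ℚ_[ℓ]) - (ℓ : ℚ_[ℓ]) ^ K * (P : ℚ_[ℓ])‖
      ≤ ‖(ℓ : ℚ_[ℓ])‖ ^ (K + e))
    (he : 0 < e)
    (u : ℕ → (ZMod (ℓ ^ e))ˣ) (T : Finset ℕ) (hT : ∀ q ∈ T, q.Prime ∧ q ≠ ℓ)
    (hu : ∀ q ∈ T, ((u q : (ZMod (ℓ ^ e))ˣ) : ZMod (ℓ ^ e)) = (q : ZMod (ℓ ^ e)))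
    (hsupp : ∀ q : ℕ, q.Prime → q ≠ ℓ → padicValRat q y ≠ 0 → q ∈ T)
    (uP : (ZMod (ℓ ^ e))ˣ) (huP : (uP : ZMod (ℓ ^ e)) = (P : ZMod (ℓ ^ e))) :
    ∏ q ∈ T, u q ^ padicValRat q y = uP := by
  have hℓ : ℓ.Prime := Fact.out
  have hy : y ≠ 0 := hypos.ne'
  obtain ⟨s, hs1⟩ : ∃ s : ℤˣ, s = 1 := ⟨1, rfl⟩
  have hest : ‖(y : ℚ_[ℓ]) - ((s : ℤ) : ℚ_[ℓ]) * (ℓ : ℚ_[ℓ]) ^ K * (P : ℚ_[ℓ])‖
      ≤ ‖(ℓ : ℚ_[ℓ])‖ ^ (K + e) := by
    rw [hs1]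
    simpa using hest'
  have hℓ0 : (ℓ : ℚ) ≠ 0 := Nat.cast_ne_zero.mpr hℓ.ne_zero
  have hℓ0' : (ℓ : ℚ_[ℓ]) ≠ 0 := Nat.cast_ne_zero.mpr hℓ.ne_zero
  have hs : ((s : ℤ) : ℚ) ≠ 0 := by
    rcases Int.units_eq_one_or s with h | h <;> simp [h]
  set w : ℚ := ((s : ℤ) : ℚ) * (ℓ : ℚ) ^ K with hw
  have hw0 : w ≠ 0 := mul_ne_zero hs (zpow_ne_zero _ hℓ0)
  set z : ℚ := y / w with hz
  have hz0 : z ≠ 0 := div_ne_zero hy hw0
  have hyz : y = w * z := by rw [hz]; field_simp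
  -- the estimate for `z`
  have hwcast : (w : ℚ_[ℓ]) = ((s : ℤ) : ℚ_[ℓ]) * (ℓ : ℚ_[ℓ]) ^ K := by
    rw [hw]; push_cast; rfl
  have hsnorm : ‖((s : ℤ) : ℚ_[ℓ])‖ = 1 := by
    rcases Int.units_eq_one_or s with h | h <;> simp [h]
  have hwnorm : ‖(w : ℚ_[ℓ])‖ = ‖(ℓ : ℚ_[ℓ])‖ ^ K := by
    rw [hwcast, norm_mul, hsnorm, one_mul, norm_zpow]
  have hℓnorm : 0 < ‖(ℓ : ℚ_[ℓ])‖ := norm_pos_iff.mpr hℓ0'
  have hzest : ‖(z : ℚ_[ℓ]) - (P : ℚ_[ℓ])‖ ≤ ‖(ℓ : ℚ_[ℓ])‖ ^ e := by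
    have h1 : (y : ℚ_[ℓ]) - ((s : ℤ) : ℚ_[ℓ]) * (ℓ : ℚ_[ℓ]) ^ K * (P : ℚ_[ℓ]) =
        (w : ℚ_[ℓ]) * ((z : ℚ_[ℓ]) - (P : ℚ_[ℓ])) := by
      rw [hyz, Rat.cast_mul, ← hwcast]; ring
    rw [h1, norm_mul, hwnorm, zpow_add₀ hℓnorm.ne', zpow_natCast] at hest
    exact le_of_mul_le_mul_left hest (zpow_pos hℓnorm K)
  -- numerator and denominator
  set a : ℤ := z.num with ha
  set b : ℕ := z.den with hb
  have hb0 : b ≠ 0 := z.den_ne_zero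
  have ha0 : a ≠ 0 := Rat.num_ne_zero.mpr hz0
  have hzab : (z : ℚ_[ℓ]) = (a : ℚ_[ℓ]) / (b : ℚ_[ℓ]) := by
    conv_lhs => rw [← Rat.num_div_den z]
    push_cast; rfl
  have hbℓ0 : (b : ℚ_[ℓ]) ≠ 0 := Nat.cast_ne_zero.mpr hb0
  have hdiv : ((ℓ ^ e : ℕ) : ℤ) ∣ a - (P : ℤ) * (b : ℤ) := by
    have h1 : ((a - (P : ℤ) * (b : ℤ) : ℤ) : ℚ_[ℓ]) =
        (b : ℚ_[ℓ]) * ((z : ℚ_[ℓ]) - (P : ℚ_[ℓ])) := by
      rw [hzab]; push_cast; field_simp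
    have h2 : ‖((a - (P : ℤ) * (b : ℤ) : ℤ) : ℚ_[ℓ])‖ ≤ (ℓ : ℝ) ^ (-(e : ℤ)) := by
      rw [h1, norm_mul]
      have hb1 : ‖(b : ℚ_[ℓ])‖ ≤ 1 := by
        have := Padic.norm_int_le_one (p := ℓ) (b : ℤ)
        simpa using this
      calc ‖(b : ℚ_[ℓ])‖ * ‖(z : ℚ_[ℓ]) - (P : ℚ_[ℓ])‖
          ≤ 1 * ‖(ℓ : ℚ_[ℓ])‖ ^ e :=
            mul_le_mul hb1 hzest (norm_nonneg _) zero_le_one
        _ = (ℓ : ℝ) ^ (-(e : ℤ)) := by
            rw [one_mul, Padic.norm_p, inv_pow, zpow_neg, zpow_natCast]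
    have h3 := (Padic.norm_int_le_pow_iff_dvd (p := ℓ) (a - (P : ℤ) * (b : ℤ)) e).mp h2
    simpa using h3
  have hcop : Nat.Coprime a.natAbs b := z.reduced
  have hℓdvd : ((ℓ : ℕ) : ℤ) ∣ a - (P : ℤ) * (b : ℤ) := by
    refine dvd_trans ?_ hdiv
    exact_mod_cast dvd_pow_self ℓ he.ne'
  have hℓb : ¬ ℓ ∣ b := by
    intro hbd
    have h1 : ((ℓ : ℕ) : ℤ) ∣ a := by
      have h2 : ((ℓ : ℕ) : ℤ) ∣ (P : ℤ) * (b : ℤ) :=
        Dvd.dvd.mul_left (Int.natCast_dvd_natCast.mpr hbd) _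
      have := dvd_add hℓdvd h2
      simpa using this
    have h3 : ℓ ∣ a.natAbs := Int.natCast_dvd.mp h1
    have := Nat.eq_one_of_dvd_coprimes hcop h3 hbd
    exact hℓ.one_lt.ne' this
  have hℓa : ¬ ℓ ∣ a.natAbs := by
    intro had
    have h1 : ((ℓ : ℕ) : ℤ) ∣ a := Int.natCast_dvd.mpr had
    have h2 : ((ℓ : ℕ) : ℤ) ∣ (P : ℤ) * (b : ℤ) := by
      have := dvd_sub h1 hℓdvd
      simpa using this
    have h3 : ℓ ∣ P * b := by exact_mod_cast h2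
    rcases hℓ.dvd_mul.mp h3 with h | h
    · exact hP h
    · exact hℓb h
  set A : ℕ := a.natAbs with hA
  have hA0 : A ≠ 0 := Int.natAbs_ne_zero.mpr ha0
  -- valuations
  have hval : ∀ q ∈ T, padicValRat q y = (padicValNat q A : ℤ) - (padicValNat q b : ℤ) := by
    intro q hq
    haveI : Fact q.Prime := ⟨(hT q hq).1⟩
    have hqℓ : ¬ q ∣ ℓ := fun h =>
      (hT q hq).2 ((Nat.prime_dvd_prime_iff_eq (hT q hq).1 hℓ).mp h)
    have h1 : padicValRat q w = 0 := by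
      rw [hw, padicValRat.mul hs (zpow_ne_zero _ hℓ0), padicValRat.zpow, padicValRat.of_nat,
        padicValNat.eq_zero_of_not_dvd hqℓ]
      rcases Int.units_eq_one_or s with h | h
      · simp [h]
      · rw [h]
        have : (((-1 : ℤˣ) : ℤ) : ℚ) = -1 := by simp
        rw [this, padicValRat.neg, padicValRat.one]
        simp
    rw [hyz, padicValRat.mul hw0 hz0, h1, zero_add]
    rfl
  have hprA : ∀ q, q.Prime → q ∣ A → q ∈ T := by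
    intro q hq hqA
    haveI : Fact q.Prime := ⟨hq⟩
    have hqℓ : q ≠ ℓ := fun h => hℓa (h ▸ hqA)
    have hqb : ¬ q ∣ b := fun hqb =>
      hq.one_lt.ne' (Nat.eq_one_of_dvd_coprimes hcop hqA hqb)
    refine hsupp q hq hqℓ ?_
    have hqw : padicValRat q w = 0 := by
      have hqℓ' : ¬ q ∣ ℓ := fun h => hqℓ ((Nat.prime_dvd_prime_iff_eq hq hℓ).mp h)
      rw [hw, padicValRat.mul hs (zpow_ne_zero _ hℓ0), padicValRat.zpow, padicValRat.of_nat,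
        padicValNat.eq_zero_of_not_dvd hqℓ']
      rcases Int.units_eq_one_or s with h | h
      · simp [h]
      · rw [h]
        have : (((-1 : ℤˣ) : ℤ) : ℚ) = -1 := by simp
        rw [this, padicValRat.neg, padicValRat.one]
        simp
    rw [hyz, padicValRat.mul hw0 hz0, hqw, zero_add]
    show (padicValInt q z.num : ℤ) - (padicValNat q z.den : ℤ) ≠ 0
    have h1 : padicValNat q b = 0 := padicValNat.eq_zero_of_not_dvd hqb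
    have h2 : 1 ≤ padicValNat q A := one_le_padicValNat_of_dvd hA0 hqA
    have h3 : padicValInt q z.num = padicValNat q A := rfl
    rw [h3, ← hb, h1]
    omega
  have hprB : ∀ q, q.Prime → q ∣ b → q ∈ T := by
    intro q hq hqb
    haveI : Fact q.Prime := ⟨hq⟩
    have hqℓ : q ≠ ℓ := fun h => hℓb (h ▸ hqb)
    have hqA : ¬ q ∣ A := fun hqA =>
      hq.one_lt.ne' (Nat.eq_one_of_dvd_coprimes hcop hqA hqb)
    refine hsupp q hq hqℓ ?_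
    have hqw : padicValRat q w = 0 := by
      have hqℓ' : ¬ q ∣ ℓ := fun h => hqℓ ((Nat.prime_dvd_prime_iff_eq hq hℓ).mp h)
      rw [hw, padicValRat.mul hs (zpow_ne_zero _ hℓ0), padicValRat.zpow, padicValRat.of_nat,
        padicValNat.eq_zero_of_not_dvd hqℓ']
      rcases Int.units_eq_one_or s with h | h
      · simp [h]
      · rw [h]
        have : (((-1 : ℤˣ) : ℤ) : ℚ) = -1 := by simp
        rw [this, padicValRat.neg, padicValRat.one]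
        simp
    rw [hyz, padicValRat.mul hw0 hz0, hqw, zero_add]
    show (padicValInt q z.num : ℤ) - (padicValNat q z.den : ℤ) ≠ 0
    have h1 : padicValNat q A = 0 := padicValNat.eq_zero_of_not_dvd hqA
    have h2 : 1 ≤ padicValNat q b := one_le_padicValNat_of_dvd hb0 hqb
    have h3 : padicValInt q z.num = padicValNat q A := rfl
    rw [h3, ← hb, h1]
    omega
  -- the two unit products
  set UA : (ZMod (ℓ ^ e))ˣ := ∏ q ∈ T, u q ^ padicValNat q A with hUA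
  set UB : (ZMod (ℓ ^ e))ˣ := ∏ q ∈ T, u q ^ padicValNat q b with hUB
  have hUAc : ((UA : (ZMod (ℓ ^ e))ˣ) : ZMod (ℓ ^ e)) = (A : ZMod (ℓ ^ e)) :=
    coe_prod_pow_padicValNat u T (fun q hq => (hT q hq).1) hu A hA0 hprA
  have hUBc : ((UB : (ZMod (ℓ ^ e))ˣ) : ZMod (ℓ ^ e)) = (b : ZMod (ℓ ^ e)) :=
    coe_prod_pow_padicValNat u T (fun q hq => (hT q hq).1) hu b hb0 hprB
  have hprod : ∏ q ∈ T, u q ^ padicValRat q y = UA * UB⁻¹ := by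
    rw [hUA, hUB, ← Finset.prod_inv_distrib, ← Finset.prod_mul_distrib]
    refine Finset.prod_congr rfl fun q hq => ?_
    rw [hval q hq, zpow_sub, zpow_natCast, zpow_natCast]
  have hcong : ((a : ℤ) : ZMod (ℓ ^ e)) = (P : ZMod (ℓ ^ e)) * (b : ZMod (ℓ ^ e)) := by
    have h1 := (ZMod.intCast_zmod_eq_zero_iff_dvd (a - (P : ℤ) * (b : ℤ)) (ℓ ^ e)).mpr hdiv
    push_cast at h1
    exact sub_eq_zero.mp h1
  rw [hprod]
  have hwpos : 0 < w := by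
    rw [hw, hs1]
    have : (0 : ℚ) < (ℓ : ℚ) ^ K := zpow_pos (Nat.cast_pos.mpr hℓ.pos) K
    simpa using this
  have hzpos : 0 < z := div_pos hypos hwpos
  have hapos : 0 < a := Rat.num_pos.mpr hzpos
  have h : a = (a.natAbs : ℤ) := (Int.natAbs_of_nonneg hapos.le).symm
  rw [mul_inv_eq_iff_eq_mul]
  apply Units.ext
  rw [Units.val_mul, hUAc, hUBc, huP, ← hcong, hA]
  conv_rhs => rw [h]
  simp

/-! ## The places above `ℓ` -/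

theorem exists_norm_approxTC (hK1 : CupLocSpec) (hK5 : LocalNormSpec)
    (hL5 : LocalCycloNormSharpSpec)
    (U : Subgroup GQ) (hU : IsOpenQ U) (ℓ : ℕ) [Fact ℓ.Prime] (e : ℕ) (he : 0 < e)
    [NeZero (ℓ ^ e)]
    (n : ℕ) [NeZero n] (χ : ↥U →* Multiplicative (ZMod n)) (hχ : IsLevelConstant₁ U.subtype χ)
    (a : Qbˣ) (ha : GFixed U a) (r : GQ)
    (hloc : locBr ℓ r U (gcc U n χ a) = 0) :
    ∃ (k : ℤ) (t : ℕ) (κ : ↥U), χ κ = 1 ∧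
      ((cyc (ℓ ^ e) (κ : GQ) : (ZMod (ℓ ^ e))ˣ) : ZMod (ℓ ^ e)) = (t : ZMod (ℓ ^ e)) ∧
      ‖((relNorm (locSub ℓ r U) (locPushMul ℓ r a) : (PadicAlgCl ℓ)ˣ) : PadicAlgCl ℓ) -
          (ℓ : PadicAlgCl ℓ) ^ k * (t : PadicAlgCl ℓ)‖
        ≤ ‖(ℓ : PadicAlgCl ℓ)‖ ^ (k + e) := by
  classical
  obtain ⟨⟨hχr, har⟩, hK1eq⟩ := hK1 ℓ r U n χ a (NeZero.ne n) hχ ha
  rw [hK1eq] at hloc
  have hV : IsOpenL ℓ (locSub ℓ r U) := isOpenL_locSub ℓ r U hU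
  obtain ⟨b, hb, hab⟩ := hK5 ℓ (locSub ℓ r U) hV n (χ.comp (locHom ℓ r U)) hχr
    (locPushMul ℓ r a) har hloc
  set V := locSub ℓ r U with hVdef
  set χr := χ.comp (locHom ℓ r U) with hχrdef
  set H' : Subgroup (PadicAlgCl ℓ ≃ₐ[ℚ_[ℓ]] PadicAlgCl ℓ) := χr.ker.map V.subtype with hH'
  set Cker : Subgroup (ZMod (ℓ ^ e))ˣ := χ.ker.map ((cyc (ℓ ^ e)).comp U.subtype) with hCker
  set W : Subgroup (PadicAlgCl ℓ ≃ₐ[ℚ_[ℓ]] PadicAlgCl ℓ) :=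
    Cker.comap ((cyc (ℓ ^ e)).comp (localGaloisToGlobal ℓ)) with hW
  have hH'V : H' ≤ V := Subgroup.map_subtype_le _
  have hH'W : H' ≤ W := by
    rintro τ' ⟨τ, hτ, rfl⟩
    show cyc (ℓ ^ e) (localGaloisToGlobal ℓ (τ : PadicAlgCl ℓ ≃ₐ[ℚ_[ℓ]] PadicAlgCl ℓ)) ∈ Cker
    refine ⟨locHom ℓ r U τ, hτ, ?_⟩
    show cyc (ℓ ^ e) ((locHom ℓ r U τ : ↥U) : GQ) = _
    rw [locHom_coe, cyc_conj]
  -- finiteness
  haveI hfinV : Finite ((PadicAlgCl ℓ ≃ₐ[ℚ_[ℓ]] PadicAlgCl ℓ) ⧸ V) :=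
    finite_quotient_of_isOpenL ℓ V hV
  have hidx : H'.index ≠ 0 := by
    rw [hH', Subgroup.index_map_subtype]
    refine mul_ne_zero ?_ (index_ne_zero_of_isOpenL ℓ V hV)
    rw [Subgroup.index_ker]
    exact Nat.card_pos.ne'
  haveI : H'.FiniteIndex := ⟨hidx⟩
  haveI hfinH' : Finite ((PadicAlgCl ℓ ≃ₐ[ℚ_[ℓ]] PadicAlgCl ℓ) ⧸ H') :=
    Subgroup.finite_quotient_of_finiteIndex
  have hb' : ∀ h ∈ H', h • b = b := hb
  -- norm from `L_w` to `ℚ_ℓ` through `K_v`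
  have hsub : H'.subgroupOf V = χr.ker :=
    Subgroup.comap_map_eq_self_of_injective (Subgroup.subtype_injective V) χr.ker
  have h1 : relNorm V (locPushMul ℓ r a) = relNorm H' b := by
    rw [hab, ← hsub]
    exact relNorm_trans hH'V hb'
  -- norm from `L_w` to `ℚ_ℓ` through `E`
  set b' : (PadicAlgCl ℓ)ˣ := relNorm (G := ↥W) (H'.subgroupOf W) b with hb'def
  have h2 : relNorm W b' = relNorm H' b := relNorm_trans hH'W hb'
  haveI : Finite (↥W ⧸ H'.subgroupOf W) := finite_quotient_subgroupOf hH'W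
  have hfix : LFixed ℓ W b' := by
    intro τ hτ
    have hbW : ∀ h ∈ H'.subgroupOf W, h • b = b := fun h hh => hb' (h : _) hh
    exact smul_relNorm (G := ↥W) (M := (PadicAlgCl ℓ)ˣ) (H'.subgroupOf W) hbW ⟨τ, hτ⟩
  have hZW : ∀ τ : PadicAlgCl ℓ ≃ₐ[ℚ_[ℓ]] PadicAlgCl ℓ,
      (∀ ζ : PadicAlgCl ℓ, ζ ^ (ℓ ^ e) = 1 → τ ζ = ζ) → τ ∈ W := by
    intro τ hτ
    show cyc (ℓ ^ e) (localGaloisToGlobal ℓ τ) ∈ Cker
    rw [cyc_loc_eq_one ℓ (ℓ ^ e) τ hτ]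
    exact one_mem _
  obtain ⟨k, t, τ, hτW, hτt, hest⟩ := hL5 ℓ e he W hZW b' hfix
  obtain ⟨κ, hκ, hκτ⟩ := hτW
  refine ⟨k, t, κ, hκ, ?_, ?_⟩
  · have h3 : cyc (ℓ ^ e) (κ : GQ) = cyc (ℓ ^ e) (localGaloisToGlobal ℓ τ) := hκτ
    rw [h3]
    exact cyc_loc_coe ℓ (ℓ ^ e) t τ hτt
  · rw [h1, ← h2]
    exact hest

theorem key_aboveTC (hK1 : CupLocSpec) (hK5 : LocalNormSpec) (hL5 : LocalCycloNormSharpSpec)
    (hG1 : OrbitNormSpec)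
    (U : Subgroup GQ) (hU : IsOpenQ U) (ℓ : ℕ) [Fact ℓ.Prime] (e : ℕ) (he : 0 < e)
    [NeZero (ℓ ^ e)]
    (n : ℕ) [NeZero n] (χ : ↥U →* Multiplicative (ZMod n)) (hχ : IsLevelConstant₁ U.subtype χ)
    (a : Qbˣ) (ha : GFixed U a)
    (hloc : ∀ r : GQ, locBr ℓ r U (gcc U n χ a) = 0)
    (Rℓ : Finset GQ) (hRℓ : IsDoubleCosetReps U (localGaloisToGlobal ℓ).range Rℓ)
    (y : ℚˣ) (hy : ((relNorm U a : Qbˣ) : Qb) = algebraMap ℚ Qb (y : ℚ)) :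
    ∃ (K : ℤ) (P : ℕ) (κ : ↥U), χ κ = 1 ∧
      ((cyc (ℓ ^ e) (κ : GQ) : (ZMod (ℓ ^ e))ˣ) : ZMod (ℓ ^ e)) = (P : ZMod (ℓ ^ e)) ∧
      ‖((y : ℚ) : ℚ_[ℓ]) - (ℓ : ℚ_[ℓ]) ^ K * (P : ℚ_[ℓ])‖
        ≤ ‖(ℓ : ℚ_[ℓ])‖ ^ (K + e) := by
  classical
  have hℓ : ℓ.Prime := Fact.out
  choose k t κ hκ hκt hest using fun r : GQ =>
    exists_norm_approxTC hK1 hK5 hL5 U hU ℓ e he n χ hχ a ha r (hloc r)
  -- the product of the `κ r`
  set c : ↥U →* (ZMod (ℓ ^ e))ˣ := (cyc (ℓ ^ e)).comp U.subtype with hc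
  have hmem : ∏ r ∈ Rℓ, c (κ r) ∈ χ.ker.map c :=
    Subgroup.prod_mem _ fun r _ => Subgroup.mem_map_of_mem c (MonoidHom.mem_ker.mpr (hκ r))
  obtain ⟨κ₀, hκ₀, hκ₀c⟩ := hmem
  have hcoe : ∀ r, ((c (κ r) : (ZMod (ℓ ^ e))ˣ) : ZMod (ℓ ^ e)) = (t r : ZMod (ℓ ^ e)) := hκt
  have htcop : ∀ r, Nat.Coprime ℓ (t r) := by
    intro r
    have h1 : IsUnit ((t r : ℕ) : ZMod (ℓ ^ e)) := by
      rw [← hcoe r]; exact Units.isUnit _
    have h2 : Nat.Coprime (t r) (ℓ ^ e) := (ZMod.isUnit_iff_coprime _ _).mp h1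
    exact ((Nat.coprime_pow_right_iff he _ _).mp h2).symm
  have hℓ0 : (ℓ : PadicAlgCl ℓ) ≠ 0 := Nat.cast_ne_zero.mpr hℓ.ne_zero
  have hnormℓ : ‖(ℓ : PadicAlgCl ℓ)‖ = ‖(ℓ : ℚ_[ℓ])‖ := by
    rw [← PadicAlgCl.norm_extends, map_natCast]
  have hnormℓ_pos : 0 < ‖(ℓ : PadicAlgCl ℓ)‖ := norm_pos_iff.mpr hℓ0
  have hnormℓ_le : ‖(ℓ : PadicAlgCl ℓ)‖ ≤ 1 := by
    rw [hnormℓ]; exact (Padic.norm_p_lt_one).le
  have hnormt : ∀ r, ‖(t r : PadicAlgCl ℓ)‖ = 1 := by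
    intro r
    have h1 : ‖((t r : ℕ) : ℚ_[ℓ])‖ = 1 := Padic.norm_natCast_eq_one_iff.mpr (htcop r)
    rw [← h1, ← PadicAlgCl.norm_extends, map_natCast]
  -- the product estimate
  set xs : GQ → PadicAlgCl ℓ := fun r =>
    ((relNorm (locSub ℓ r U) (locPushMul ℓ r a) : (PadicAlgCl ℓ)ˣ) : PadicAlgCl ℓ) with hxs
  set ys : GQ → PadicAlgCl ℓ := fun r =>
    (ℓ : PadicAlgCl ℓ) ^ (k r) * (t r : PadicAlgCl ℓ) with hys
  have hysnorm : ∀ r, ‖ys r‖ = ‖(ℓ : PadicAlgCl ℓ)‖ ^ (k r) := by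
    intro r
    simp only [hys, norm_mul, hnormt r, mul_one, norm_zpow]
  have hε : ∀ r ∈ Rℓ, ‖xs r - ys r‖ ≤ ‖(ℓ : PadicAlgCl ℓ)‖ ^ e * ‖ys r‖ := by
    intro r _
    rw [hysnorm r, ← zpow_natCast, ← zpow_add₀ hnormℓ_pos.ne', add_comm]
    exact hest r
  have hprodest := (norm_prod_sub_prod_le Rℓ xs ys (‖(ℓ : PadicAlgCl ℓ)‖ ^ e)
    (pow_nonneg (norm_nonneg _) e) (pow_le_one₀ (norm_nonneg _) hnormℓ_le) hε).2
  -- the product of the `xs`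
  have hxprod : ∏ r ∈ Rℓ, xs r = algebraMap ℚ_[ℓ] (PadicAlgCl ℓ) ((y : ℚ) : ℚ_[ℓ]) := by
    have h1 := (hG1 U hU a ha).2 ℓ Rℓ hRℓ
    have h2 : ∏ r ∈ Rℓ, xs r = ((locPushMul ℓ 1 (relNorm U a) : (PadicAlgCl ℓ)ˣ) : PadicAlgCl ℓ) := by
      rw [h1, Units.coe_prod]
    rw [h2, locPushMul_coe, inv_one, AlgEquiv.one_apply, hy, AlgHom.commutes, map_ratCast,
      eq_ratCast]
  -- the product of the `ys`
  set K : ℤ := ∑ r ∈ Rℓ, k r with hK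
  set P : ℕ := ∏ r ∈ Rℓ, t r with hP
  have hyprod : ∏ r ∈ Rℓ, ys r = algebraMap ℚ_[ℓ] (PadicAlgCl ℓ)
      ((ℓ : ℚ_[ℓ]) ^ K * (P : ℚ_[ℓ])) := by
    simp only [hys, Finset.prod_mul_distrib]
    rw [prod_zpow_const₀ Rℓ hℓ0, map_mul, map_zpow₀, map_natCast, map_natCast,
      hP, Nat.cast_prod]
  have hynorm : ∏ r ∈ Rℓ, ‖ys r‖ = ‖(ℓ : PadicAlgCl ℓ)‖ ^ K := by
    simp_rw [hysnorm]
    exact prod_zpow_const₀ Rℓ hnormℓ_pos.ne' _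
  refine ⟨K, P, κ₀, MonoidHom.mem_ker.mp hκ₀, ?_, ?_⟩
  · show ((c κ₀ : (ZMod (ℓ ^ e))ˣ) : ZMod (ℓ ^ e)) = _
    rw [hκ₀c, Units.coe_prod, hP, Nat.cast_prod]
    exact Finset.prod_congr rfl fun r _ => hcoe r
  · rw [hxprod, hyprod, ← map_sub, hynorm] at hprodest
    have h3 := hprodest
    rw [show ‖algebraMap ℚ_[ℓ] (PadicAlgCl ℓ) (((y : ℚ) : ℚ_[ℓ]) -
        (ℓ : ℚ_[ℓ]) ^ K * (P : ℚ_[ℓ]))‖ = ‖((y : ℚ) : ℚ_[ℓ]) -
        (ℓ : ℚ_[ℓ]) ^ K * (P : ℚ_[ℓ])‖ from PadicAlgCl.norm_extends _ _,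
      hnormℓ, ← zpow_natCast, ← zpow_add₀ (norm_pos_iff.mpr (Nat.cast_ne_zero.mpr hℓ.ne_zero)).ne',
      add_comm] at h3
    exact h3

/-! ## STEP A' -/

/-- **STEP A'** of the norm route over totally complex fields, from the leaves. -/
theorem cycloSumTC_of (hK1 : CupLocSpec) (hK5 : LocalNormSpec) (hL2 : LocalStructureSpec)
    (hL4 : CycloFrobSpec) (hL5 : LocalCycloNormSharpSpec) (hG1 : OrbitNormSpec)
    (hG1b : ProductFormulaSpec) (hG6 : NormPosSpec) (hG4 : SupportFiniteSpec)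
    (I : LocalInvSystem) (hL3 : UnramCupSpec I) : CycloSumTCSpec I := by
  classical
  intro U hU hTC ℓ _ e he n hn χ hχ hcyc a ha hloc R hR
  have hℓ : ℓ.Prime := Fact.out
  haveI : NeZero (ℓ ^ e) := ⟨pow_ne_zero e hℓ.ne_zero⟩
  haveI : NeZero n := ⟨hn⟩
  obtain ⟨y, hy⟩ := (hG1 U hU a ha).1
  set ℓp : Nat.Primes := ⟨ℓ, hℓ⟩ with hℓp
  -- data away from `ℓ`
  choose σ k hσk using fun (p : Nat.Primes × GQ) =>
    key_away hK1 hL2 hL4 I hL3 U hU (ℓ ^ e) n χ hχ hcyc a ha p.1 p.2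
  -- data above `ℓ`
  obtain ⟨K, P, κ, hκ, hκP, hest⟩ := key_aboveTC hK1 hK5 hL5 hG1 U hU ℓ e he n χ hχ a ha
    hloc (R ℓp) (hR ℓp) y hy
  have hypos : 0 < (y : ℚ) := hG6 U hU hTC a ha y hy
  have hcop : ∀ q : Nat.Primes, q ≠ ℓp → Nat.Coprime (q : ℕ) (ℓ ^ e) := by
    intro q hq
    apply Nat.Coprime.pow_right
    exact (Nat.coprime_primes q.2 hℓ).mpr (fun h => hq (Subtype.ext h))
  -- the finite sets of primes
  have hfin := hG4 I U hU (gcc U n χ a)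
  set Sy : Finset Nat.Primes :=
    Finset.subtype Nat.Prime ((y : ℚ).num.natAbs * (y : ℚ).den).primeFactors with hSy
  set S0 : Finset Nat.Primes := hfin.toFinset ∪ Sy with hS0
  set S' : Finset Nat.Primes := S0.erase ℓp with hS'
  have hsupp : Function.support
      (fun q : Nat.Primes => ∑ r ∈ R q, I.invAt q r U (gcc U n χ a)) ⊆ ↑S0 := by
    intro q hq
    rw [Function.mem_support] at hq
    obtain ⟨r, hr, hne⟩ := Finset.exists_ne_zero_of_sum_ne_zero hq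
    rw [Finset.mem_coe, hS0, Finset.mem_union]
    left
    rw [Set.Finite.mem_toFinset]
    refine ⟨r, fun h0 => hne ?_⟩
    unfold LocalInvSystem.invAt
    rw [h0, map_zero]
  show I.sumInv U R (gcc U n χ a) = 0
  unfold LocalInvSystem.sumInv
  rw [finsum_eq_sum_of_support_subset _ hsupp]
  have hℓterm : ∑ r ∈ R ℓp, I.invAt ℓp r U (gcc U n χ a) = 0 := by
    refine Finset.sum_eq_zero fun r _ => ?_
    unfold LocalInvSystem.invAt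
    have := hloc r
    rw [this, map_zero]
  rw [← Finset.sum_erase S0 hℓterm]
  have hterm : ∀ q ∈ S', ∀ r ∈ R q, I.invAt q r U (gcc U n χ a) =
      ((((k (q, r) : ℚ) * ((chiAdd χ (σ (q, r))).val : ℚ) / (n : ℚ) : ℚ)) :
        AddCircle (1 : ℚ)) := by
    intro q hq r _
    exact (hσk (q, r) (hcop q (Finset.ne_of_mem_erase hq))).1
  rw [Finset.sum_congr rfl (fun q hq => Finset.sum_congr rfl (hterm q hq))]
  rw [Finset.sum_sigma' S' R (fun q r =>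
    ((((k (q, r) : ℚ) * ((chiAdd χ (σ (q, r))).val : ℚ) / (n : ℚ) : ℚ)) : AddCircle (1 : ℚ)))]
  refine addCircle_sum_eq_zero (S'.sigma R) n (fun p => k (p.1, p.2))
    (fun p => chiAdd χ (σ (p.1, p.2))) ?_
  -- the group-theoretic heart
  set c : ↥U →* (ZMod (ℓ ^ e))ˣ := (cyc (ℓ ^ e)).comp U.subtype with hc
  set θ : ↥U →* (ZMod (ℓ ^ e))ˣ × Multiplicative (ZMod n) := c.prod χ with hθ
  set tw : (ZMod (ℓ ^ e))ˣ × Multiplicative (ZMod n) :=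
    ∏ p ∈ S'.sigma R, θ (σ (p.1, p.2)) ^ k (p.1, p.2) with htw
  have hmem : (tw.1, tw.2) ∈ θ.range :=
    Subgroup.prod_mem _ fun p _ => Subgroup.zpow_mem _ (MonoidHom.mem_range.mpr ⟨_, rfl⟩) _
  have htw2 : tw.2 = ∏ p ∈ S'.sigma R, χ (σ (p.1, p.2)) ^ k (p.1, p.2) := by
    rw [htw]
    rw [show (∏ p ∈ S'.sigma R, θ (σ (p.1, p.2)) ^ k (p.1, p.2)).2 =
      MonoidHom.snd _ _ (∏ p ∈ S'.sigma R, θ (σ (p.1, p.2)) ^ k (p.1, p.2)) from rfl, map_prod]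
    refine Finset.prod_congr rfl fun p _ => ?_
    rw [map_zpow]
    rfl
  have htw1 : tw.1 = ∏ q ∈ S', uq (ℓ ^ e) (q : ℕ) ^ padicValRat (q : ℕ) (y : ℚ) := by
    rw [htw]
    rw [show (∏ p ∈ S'.sigma R, θ (σ (p.1, p.2)) ^ k (p.1, p.2)).1 =
      MonoidHom.fst _ _ (∏ p ∈ S'.sigma R, θ (σ (p.1, p.2)) ^ k (p.1, p.2)) from rfl, map_prod]
    rw [← Finset.prod_sigma' S' R (fun q r =>
      (MonoidHom.fst _ _) (θ (σ (q, r)) ^ k (q, r)))]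
    refine Finset.prod_congr rfl fun q hq => ?_
    have h1 : ∀ r ∈ R q, (MonoidHom.fst _ _) (θ (σ (q, r)) ^ k (q, r)) =
        uq (ℓ ^ e) (q : ℕ) ^ vdAt U a q r := by
      intro r _
      rw [map_zpow]
      exact (hσk (q, r) (hcop q (Finset.ne_of_mem_erase hq))).2
    rw [Finset.prod_congr rfl h1, prod_zpow_const]
    congr 1
    haveI : Fact (q : ℕ).Prime := ⟨q.2⟩
    exact (hG1b U hU a ha y hy (q : ℕ) (R q) (hR q)).symm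
  -- the congruence
  have hPunit : IsUnit ((P : ℕ) : ZMod (ℓ ^ e)) := by
    rw [← hκP]; exact Units.isUnit _
  have hPℓ : ¬ ℓ ∣ P := by
    have h2 : Nat.Coprime P (ℓ ^ e) := (ZMod.isUnit_iff_coprime _ _).mp hPunit
    have h3 : Nat.Coprime P ℓ := (Nat.coprime_pow_right_iff he _ _).mp h2
    exact fun h => hℓ.one_lt.ne' (Nat.eq_one_of_dvd_coprimes h3 h (dvd_refl ℓ))
  have hy0 : (y : ℚ) ≠ 0 := y.ne_zero
  let emb : Nat.Primes ↪ ℕ := ⟨fun q => (q : ℕ), fun a b h => Subtype.ext h⟩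
  set T : Finset ℕ := S'.map emb with hT
  have hTmem : ∀ q ∈ T, q.Prime ∧ q ≠ ℓ := by
    intro q hq
    obtain ⟨q', hq', rfl⟩ := Finset.mem_map.mp hq
    exact ⟨q'.2, fun h => (Finset.ne_of_mem_erase hq') (Subtype.ext h)⟩
  have hTu : ∀ q ∈ T, ((uq (ℓ ^ e) q : (ZMod (ℓ ^ e))ˣ) : ZMod (ℓ ^ e)) = (q : ZMod (ℓ ^ e)) := by
    intro q hq
    obtain ⟨q', hq', rfl⟩ := Finset.mem_map.mp hq
    exact uq_coe (hcop q' (Finset.ne_of_mem_erase hq'))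
  have hTsupp : ∀ q : ℕ, q.Prime → q ≠ ℓ → padicValRat q (y : ℚ) ≠ 0 → q ∈ T := by
    intro q hq hqℓ hval
    haveI : Fact q.Prime := ⟨hq⟩
    refine Finset.mem_map.mpr ⟨(⟨q, hq⟩ : Nat.Primes), ?_, rfl⟩
    refine Finset.mem_erase.mpr ⟨fun h => hqℓ (congrArg Subtype.val h), ?_⟩
    refine Finset.mem_union.mpr (Or.inr ?_)
    refine Finset.mem_subtype.mpr ?_
    show q ∈ ((y : ℚ).num.natAbs * (y : ℚ).den).primeFactors
    have hnum : (y : ℚ).num.natAbs ≠ 0 := Int.natAbs_ne_zero.mpr (Rat.num_ne_zero.mpr hy0)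
    have hden : (y : ℚ).den ≠ 0 := (y : ℚ).den_ne_zero
    rw [Nat.mem_primeFactors]
    refine ⟨hq, ?_, mul_ne_zero hnum hden⟩
    by_contra hnd
    have h1 : ¬ q ∣ (y : ℚ).num.natAbs := fun h => hnd (Dvd.dvd.mul_right h _)
    have h2 : ¬ q ∣ (y : ℚ).den := fun h => hnd (Dvd.dvd.mul_left h _)
    apply hval
    show (padicValInt q (y : ℚ).num : ℤ) - (padicValNat q (y : ℚ).den : ℤ) = 0
    have h3 : padicValInt q (y : ℚ).num = padicValNat q (y : ℚ).num.natAbs := rfl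
    rw [h3, padicValNat.eq_zero_of_not_dvd h1, padicValNat.eq_zero_of_not_dvd h2]
    simp
  have hpm := unit_prod_eq_of_pos ℓ e (y : ℚ) hypos K P hPℓ hest he (uq (ℓ ^ e)) T hTmem hTu hTsupp
    (c κ) hκP
  rw [hT, Finset.prod_map] at hpm
  have hpm' : tw.1 = c κ := by
    rw [htw1]
    exact hpm
  have hcyc' : ∀ τ : ↥U, c τ = 1 → χ τ = 1 := fun τ h =>
    hcyc τ (fun ζ hζ => fixes_of_cyc_eq_one (ℓ ^ e) _ h hζ)
  have hw : tw.2 = 1 := chi_eq_one_of_mem_range_exact c χ hcyc' hmem κ hκ hpm'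
  rw [htw2] at hw
  have := congrArg Multiplicative.toAdd hw
  rw [toAdd_prod, toAdd_one] at this
  rw [← this]
  refine Finset.sum_congr rfl fun p _ => ?_
  rw [toAdd_zpow]
  rfl

/-- **SA2**: STEP A' from the two new leaves (all other leaves are proved on main). -/
theorem stepA2 : StepA2Spec := fun hL5 hG6 I =>
  cycloSumTC_of H496.cupLoc H844.localNorm H931.localStructure H854.cycloFrob hL5
    H934.orbitNorm (H124.productFormula_of H934.orbitNorm VdegH707.vdegSpec) hG6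
    H181.supportFinite I (H900.unramCup_of H931.localStructure H496.cupAdd I)

end Fermat.Agent.LT.CFT.H1
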