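import Fermat.Agent.LT.CFT.H1.Spec
import Fermat.Agent.S55.G.Rec.StepBH415
import Fermat.Agent.S55.G.Rec.Glob.CyclicSplit
import Fermat.Agent.S55.G.Rec.SupportFiniteH181
import Fermat.Agent.S55.G.Rec.LocResH496

/-!
# Row LT, tower CFT, sub-tower REC2 (helper1), OFF-MAIN : sub-leaf SB2 = STEP B' (PROVED)

`stepB2 : StepB2Spec`, i.e. `HassePrinciple2Spec → ∀ I, CycloSumTCSpec I → TrivAbove2Spec I`.

Copy of main `Fermat.Agent.S55.G.Rec.H415.trivAboveP_of` (helper415) at `p = 2`.  Changes: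
* the character is `σ ↦ c(σ)²`, `c` the cyclotomic character mod `2^(m+2)`; its values lie in the
  CYCLIC subgroup `⟨5⟩` of index `2` of `(ℤ/2^(m+2))ˣ` (`ZMod.orderOf_five`);
* `(ℤ/2^N)ˣ` is not cyclic: a subgroup of order divisible by `2^(K+1)` contains an element of
  order divisible by `2^K` (`exists_orderOf_of_index_dvd_two`), so one more power of `2` is asked
  from the local degrees (main `H414`, valid for every prime);
* the Hasse principle is applied to the extension `ker χ ≤ U`, which is totally complex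
  (`IsTC.mono`).
-/

set_option autoImplicit false

noncomputable section

namespace Fermat.Agent.LT.CFT.H1

open Fermat.Agent.S55.G.Rec Fermat.Agent.S55.G.Rec.H415 groupCohomology Fermat.Agent.S55.H414
  ExtCitation

local notation "Qb" => AlgebraicClosure ℚ
local notation "GQ" => (AlgebraicClosure ℚ ≃ₐ[ℚ] AlgebraicClosure ℚ)

/-! ## Group theory -/

/-- In a commutative group with a cyclic subgroup `Z` of index dividing `2`, every finite
subgroup of order divisible by `2 ^ (K + 1)` contains an element of order divisible by `2 ^ K`. -/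
theorem exists_orderOf_of_index_dvd_two {G : Type*} [CommGroup G] [Finite G] (Z : Subgroup G)
    [IsCyclic ↥Z] (hZ : Z.index ∣ 2) (H : Subgroup G) (K : ℕ) (hH : 2 ^ (K + 1) ∣ Nat.card ↥H) :
    ∃ h ∈ H, 2 ^ K ∣ orderOf h := by
  -- the intersection, as a subgroup of `H`
  set H' : Subgroup ↥H := Z.subgroupOf H with hH'
  have hcard : Nat.card ↥H' * Z.relIndex H = Nat.card ↥H := Subgroup.card_mul_index H'
  have hr : Z.relIndex H ∣ 2 := (Subgroup.relIndex_dvd_index_of_normal Z H).trans hZ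
  have hdiv : 2 ^ K ∣ Nat.card ↥H' := by
    rcases (Nat.dvd_prime Nat.prime_two).1 hr with h1 | h2
    · rw [h1, mul_one] at hcard
      rw [hcard]
      exact (pow_dvd_pow 2 (Nat.le_succ K)).trans hH
    · rw [h2] at hcard
      rw [← hcard, pow_succ] at hH
      exact Nat.dvd_of_mul_dvd_mul_right (by norm_num) hH
  -- it is cyclic
  let f : ↥H' →* ↥Z :=
    MonoidHom.codRestrict (H.subtype.comp H'.subtype) Z (fun x => Subgroup.mem_subgroupOf.1 x.2)
  have hf : Function.Injective f := by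
    intro x y hxy
    have h1 : ((x : ↥H) : G) = ((y : ↥H) : G) := congrArg (fun z : ↥Z => (z : G)) hxy
    exact Subtype.ext (Subtype.ext h1)
  haveI : IsCyclic ↥H' := isCyclic_of_injective f hf
  obtain ⟨g, hg⟩ := IsCyclic.exists_generator (α := ↥H')
  refine ⟨((g : ↥H) : G), (g : ↥H).2, ?_⟩
  have h1 : orderOf g = Nat.card ↥H' := orderOf_eq_card_of_forall_mem_zpowers hg
  rw [Subgroup.orderOf_coe, Subgroup.orderOf_coe, h1]
  exact hdiv

/-- The unit `5` of `ℤ/2^(m+2)`. -/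
def five (m : ℕ) : (ZMod (2 ^ (m + 2)))ˣ :=
  ZMod.unitOfCoprime 5 (Nat.Coprime.pow_right _ (by norm_num))

theorem orderOf_five' (m : ℕ) : orderOf (five m) = 2 ^ m := by
  rw [← orderOf_units, five, ZMod.coe_unitOfCoprime, Nat.cast_ofNat]
  exact ZMod.orderOf_five m

theorem card_units_two_pow (m : ℕ) : Nat.card (ZMod (2 ^ (m + 2)))ˣ = 2 ^ (m + 1) := by
  rw [Nat.card_eq_fintype_card, ZMod.card_units_eq_totient,
    Nat.totient_prime_pow Nat.prime_two (by omega)]
  simp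

/-- `⟨5⟩` has index `2` in `(ℤ/2^(m+2))ˣ`. -/
theorem index_zpowers_five (m : ℕ) : (Subgroup.zpowers (five m)).index = 2 := by
  have h1 := Subgroup.card_mul_index (Subgroup.zpowers (five m))
  rw [Nat.card_zpowers, orderOf_five', card_units_two_pow, pow_succ 2 m] at h1
  exact Nat.eq_of_mul_eq_mul_left (pow_pos (by norm_num) m) h1

/-- Squares lie in `⟨5⟩`. -/
theorem sq_mem_zpowers_five (m : ℕ) (x : (ZMod (2 ^ (m + 2)))ˣ) :
    x ^ 2 ∈ Subgroup.zpowers (five m) := by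
  have h := Subgroup.pow_index_mem (Subgroup.zpowers (five m)) x
  rwa [index_zpowers_five] at h

/-- If `2 ^ (K + 1)` divides the local degree at `q` of `ℚ(ζ_{2^(m+2)})/ℚ`, some element of the
local Galois group has a cyclotomic value of order divisible by `2 ^ K`. -/
theorem exists_local_elt2 (m K : ℕ) (Q : Nat.Primes) [hQ : Fact (Q : ℕ).Prime]
    (h : 2 ^ (K + 1) ∣
      (cycloLevel (2 ^ (m + 2))).fixingSubgroup.relIndex (primeLocalToGlobal Q).range) :
    ∃ τ : PadicAlgCl (Q : ℕ) ≃ₐ[ℚ_[(Q : ℕ)]] PadicAlgCl (Q : ℕ),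
      2 ^ K ∣ orderOf (cycloPow (2 ^ (m + 2)) (localGaloisToGlobal (Q : ℕ) τ)) := by
  have h' : 2 ^ (K + 1) ∣
      (cycloLevel (2 ^ (m + 2))).fixingSubgroup.relIndex (localGaloisToGlobal (Q : ℕ)).range := h
  rw [← ker_cycloPow, Subgroup.relIndex_ker, MonoidHom.map_range] at h'
  obtain ⟨w, ⟨τ, rfl⟩, hw⟩ := exists_orderOf_of_index_dvd_two (Subgroup.zpowers (five m))
    (by rw [index_zpowers_five]) _ K h'
  exact ⟨τ, hw⟩

/-! ## STEP B' -/

/-- **STEP B'** of the norm route at `p = 2`, totally complex fields. -/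
theorem trivAbove2_of (I : LocalInvSystem)
    (hHP : HassePrinciple2Spec) (hK4 : CyclicSplitSpec) (hG4 : SupportFiniteSpec)
    (hG5 : LocResSpec) (hSA : CycloSumTCSpec I) : TrivAbove2Spec I := by
  intro U hU hTC x hx hloc R hR
  obtain ⟨k, hk⟩ := hx
  have hp : (2 : ℕ).Prime := Nat.prime_two
  have hTfin := hG4 I U hU x
  have hidx : U.index ≠ 0 := index_ne_zero_of_isOpenQ hU
  have hepos : 0 < 2 := by norm_num
  obtain ⟨n₀, hn₀⟩ := exists_forall_forall_pow_dvd_relIndex_primeLocal 2 hTfin.toFinset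
    (k + (U.index).factorial * 2 + 1)
  obtain ⟨N, hNdef⟩ : ∃ N : ℕ, N = n₀ + 2 := ⟨_, rfl⟩
  have hN := hn₀ N (by omega)
  subst hNdef
  -- the character
  let ψ : ↥U →* ↥(Subgroup.zpowers (five n₀)) :=
    MonoidHom.codRestrict
      ((powMonoidHom 2).comp ((cycloPow (2 ^ (n₀ + 2))).comp U.subtype))
      (Subgroup.zpowers (five n₀)) (fun u => sq_mem_zpowers_five n₀ _)
  have hψ_apply : ∀ u : ↥U, ((ψ u : ↥(Subgroup.zpowers (five n₀))) : (ZMod (2 ^ (n₀ + 2)))ˣ) =
      cycloPow (2 ^ (n₀ + 2)) (u : GQ) ^ 2 := fun u => rfl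
  have hψ : ∀ u, ψ u ^ (2 ^ n₀) = 1 := by
    intro u
    have h1 : Nat.card ↥(Subgroup.zpowers (five n₀)) = 2 ^ n₀ := by
      rw [Nat.card_zpowers, orderOf_five']
    rw [← h1]
    exact pow_card_eq_one'
  obtain ⟨j, χ, hsurj, hχ1⟩ := exists_char_of_cyclic 2 n₀ ψ hψ
  have hχc : ∀ u : ↥U, χ u = 1 ↔ cycloPow (2 ^ (n₀ + 2)) (u : GQ) ^ 2 = 1 := by
    intro u
    rw [hχ1, ← hψ_apply, OneMemClass.coe_eq_one]
  have hker : ∀ u : ↥U, (u : GQ) ∈ (cycloLevel (2 ^ (n₀ + 2))).fixingSubgroup → χ u = 1 := by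
    intro u hu
    rw [hχc]
    rw [← ker_cycloPow, MonoidHom.mem_ker] at hu
    rw [hu, one_pow]
  have hlevel : IsLevelConstant₁ U.subtype χ :=
    ⟨cycloLevel (2 ^ (n₀ + 2)), inferInstance, fun g s hs => by
      rw [map_mul, hker s hs, mul_one]⟩
  have hcyc : IsCycloChar U (2 ^ (n₀ + 2)) χ := by
    intro σ hσ
    apply hker
    rw [mem_fixingSubgroup_cycloLevel_iff]
    exact hσ _ (zetaBar_spec (2 ^ (n₀ + 2))).pow_eq_one
  haveI : NeZero (2 ^ j) := ⟨pow_ne_zero _ hp.ne_zero⟩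
  -- the kernel is open
  have hU' : IsOpenQ (χ.ker.map U.subtype) := by
    refine isOpenQ_of_level hU (cycloLevel (2 ^ (n₀ + 2))) (fun σ hσU hσ => ?_)
    exact ⟨⟨σ, hσU⟩, hker ⟨σ, hσU⟩ hσ, rfl⟩
  have hTC' : IsTC (χ.ker.map U.subtype) := hTC.mono (Subgroup.map_subtype_le _)
  -- the restriction to the kernel is locally trivial, hence trivial
  have hres : gRes (U := U) (U' := χ.ker.map U.subtype) (Subgroup.map_subtype_le _) x = 0 := by
    refine hHP _ hU' hTC' _ ⟨k, nsmul_gRes_eq_zero _ x _ hk⟩ ?_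
    intro q hq g
    obtain ⟨Q, rfl⟩ : ∃ Q : Nat.Primes, (Q : ℕ) = q := ⟨⟨q, hq.out⟩, rfl⟩
    rw [hG5 (Q : ℕ) g U _ (Subgroup.map_subtype_le _) x]
    by_cases hqT : Q ∈ hTfin.toFinset
    · -- the local degree is divisible by `2 ^ k`
      exact (exists_local_elt2 n₀ _ Q (hN Q hqT)).elim fun τ hτ =>
        lRes_locBr_eq_zero_of_dvd I (Q : ℕ) g (Subgroup.map_subtype_le _) hU' x (2 ^ k) hk
          (pow_dvd_relIndex_locSub_ker 2 (Q : ℕ) g U hidx (cycloPow (2 ^ (n₀ + 2))) 2 hepos j χ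
            hχc τ k hτ)
    · have h0 : locBr (Q : ℕ) g U x = 0 := by
        by_contra h
        exact hqT (hTfin.mem_toFinset.2 ⟨g, h⟩)
      rw [h0, map_zero]
  obtain ⟨a, ha, hxa⟩ := hK4 U hU (2 ^ j) χ hlevel hsurj x hres
  rw [hxa]
  refine hSA U hU hTC 2 (n₀ + 2) (by omega) (2 ^ j) (pow_ne_zero _ hp.ne_zero) χ hlevel hcyc a ha
    (fun g => ?_) R hR
  rw [← hxa]
  exact hloc g

/-- **SB2**: STEP B' from the Hasse principle at `2` and STEP A'. -/
theorem stepB2 : StepB2Spec := fun hHP I hSA =>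
  trivAbove2_of I hHP Glob.cyclicSplit H181.supportFinite H496.locRes hSA

end Fermat.Agent.LT.CFT.H1
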