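import Fermat.Agent.LT.CFT.H1.StepA
import Fermat.Agent.LT.CFT.H1.StepB
import Fermat.Agent.LT.CFT.H1.StepC

/-!
# Row LT, tower CFT, sub-tower REC2 (helper1), OFF-MAIN : THE WALL OF REC2 (PROVED)

`reciprocityTC : LocalCycloNormSharpSpec → NormPosSpec → HassePrinciple2Spec →
  ∀ I, ReciprocityTCSpec I`.

The reciprocity law `∑_v inv_v (x_v) = 0` for the `2`-primary part of `Br(K)`, `K = ℚ̄^U`
totally complex, for EVERY local invariant system `I`, from exactly THREE open leaves:
* L5' `LocalCycloNormSharpSpec` (local, Mathlib + main `H413`),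
* G6  `NormPosSpec` (global, elementary),
* HP2 `HassePrinciple2Spec` (sub-tower G2: the inequalities at `p = 2`).
-/

set_option autoImplicit false

namespace Fermat.Agent.LT.CFT.H1

open Fermat.Agent.S55.G.Rec

/-- **REC2** from the three open leaves. -/
theorem reciprocityTC (hL5 : LocalCycloNormSharpSpec) (hG6 : NormPosSpec)
    (hHP : HassePrinciple2Spec) (I : LocalInvSystem) : ReciprocityTCSpec I :=
  reciprocityTC_of_leaves hL5 hG6 hHP stepA2 stepB2 stepC2 H181.supportFinite I

end Fermat.Agent.LT.CFT.H1
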