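import Fermat.Agent.LT.CFT.H1.Wall
import Fermat.Agent.LT.CFT.H1.NormPos

/-!
# Row LT, tower CFT, sub-tower REC2 (helper1), OFF-MAIN : THE WALL OF REC2, version 2 (PROVED)

`reciprocityTC2 : LocalCycloNormSharpSpec → HassePrinciple2Spec → ∀ I, ReciprocityTCSpec I`.

Leaf G6 (`NormPosSpec`) is proved (`NormPos.lean`); TWO open leaves remain:
* L5' `LocalCycloNormSharpSpec` (local norms from subfields of `ℚ_ℓ(μ_{ℓ^e})`, no sign),
* HP2 `HassePrinciple2Spec` (sub-tower G2: the inequalities at `p = 2`).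
-/

set_option autoImplicit false

namespace Fermat.Agent.LT.CFT.H1

open Fermat.Agent.S55.G.Rec

/-- **REC2** from the two open leaves. -/
theorem reciprocityTC2 (hL5 : LocalCycloNormSharpSpec) (hHP : HassePrinciple2Spec)
    (I : LocalInvSystem) : ReciprocityTCSpec I :=
  reciprocityTC hL5 normPos hHP I

end Fermat.Agent.LT.CFT.H1
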