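import Fermat.Agent.LT.CFT.H1.Wall2
import Fermat.Agent.LT.CFT.H1.L5.Main

/-!
# Row LT, tower CFT, sub-tower REC2 (helper1), OFF-MAIN : THE WALL OF REC2, version 3 (PROVED)

`reciprocityTC3 : HassePrinciple2Spec → ∀ I, ReciprocityTCSpec I`.

Leaves L5' (`L5/Main.lean`) and G6 (`NormPos.lean`) are proved; the ONLY input left is
HP2 `HassePrinciple2Spec` (sub-tower G2: the Hasse principle for the `2`-primary part of the
Brauer group of a totally complex number field).
-/

set_option autoImplicit false

namespace Fermat.Agent.LT.CFT.H1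

open Fermat.Agent.S55.G.Rec

/-- **REC2** from the Hasse principle at `2`. -/
theorem reciprocityTC3 (hHP : HassePrinciple2Spec) (I : LocalInvSystem) :
    ReciprocityTCSpec I :=
  reciprocityTC2 L5.localCycloNormSharp hHP I

end Fermat.Agent.LT.CFT.H1
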